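import Fermat.Agent.Lifting.Patching.Module
import Fermat.Agent.RT.Assembly.FrameLevel

/-!
# The systems at finite level from diamond actions

An action of `R` on `Λ^D`, `Λ = O[Δ]`, and a homomorphism `P → R⟦frame variables⟧` give an action of
`P` on `(S/𝔪ⁿ)^D`. The construction is explicit, so that it respects maps between different modules
and is compatible with the reduction to the augmentation.
-/

set_option autoImplicit false

noncomputable section

open IsLocalRing Fermat.Agent.RT Fermat.Agent.RT.Patch Fermat.Agent.RT.Diamond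

namespace Fermat.Agent.Lifting.Patching

section Series

variable {σ T R R' : Type} [CommRing T] [CommRing R] [CommRing R'] {D D' : ℕ}
  (ρ : R →+* Matrix (Fin D) (Fin D) T) (ρ' : R' →+* Matrix (Fin D') (Fin D') T)

/-- A matrix action applied coefficientwise. -/
def seriesHom : MvPowerSeries σ R →+* Matrix (Fin D) (Fin D) (MvPowerSeries σ T) where
  toFun f := Matrix.of fun i j => ((fun m => ρ (MvPowerSeries.coeff m f) i j) : MvPowerSeries σ T)
  map_one' := by
    classical
    refine Matrix.ext fun i j => MvPowerSeries.ext fun m => ?_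
    show ρ (MvPowerSeries.coeff m 1) i j = _
    rw [MvPowerSeries.coeff_one, apply_ite (ρ ·), map_one, map_zero, Matrix.one_apply]
    rcases eq_or_ne i j with rfl | hij
    · rw [if_pos rfl, MvPowerSeries.coeff_one]
      split_ifs with hm <;> simp
    · rw [if_neg hij, map_zero]
      split_ifs with hm <;> simp [hij]
  map_mul' f g := by
    classical
    refine Matrix.ext fun i j => MvPowerSeries.ext fun m => ?_
    show ρ (MvPowerSeries.coeff m (f * g)) i j = _
    rw [MvPowerSeries.coeff_mul, map_sum, Matrix.sum_apply, Matrix.mul_apply, map_sum]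
    simp only [MvPowerSeries.coeff_mul, map_mul, Matrix.mul_apply]
    exact Finset.sum_comm
  map_zero' := Matrix.ext fun i j => MvPowerSeries.ext fun m => by
    show ρ (MvPowerSeries.coeff m 0) i j = _
    rw [map_zero, map_zero]
    rfl
  map_add' f g := Matrix.ext fun i j => MvPowerSeries.ext fun m => by
    show ρ (MvPowerSeries.coeff m (f + g)) i j = _
    rw [map_add, map_add]
    rfl

theorem coeff_seriesHom (f : MvPowerSeries σ R) (m : σ →₀ ℕ) (i j : Fin D) :
    MvPowerSeries.coeff m (seriesHom ρ f i j) = ρ (MvPowerSeries.coeff m f) i j := rfl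

theorem seriesHom_C (a : R) :
    seriesHom (σ := σ) ρ (MvPowerSeries.C a) = (ρ a).map MvPowerSeries.C := by
  classical
  refine Matrix.ext fun i j => MvPowerSeries.ext fun m => ?_
  rw [coeff_seriesHom, MvPowerSeries.coeff_C, Matrix.map_apply, MvPowerSeries.coeff_C]
  split_ifs <;> simp

theorem seriesHom_X (s : σ) :
    seriesHom ρ (MvPowerSeries.X s) = Matrix.scalar (Fin D) (MvPowerSeries.X s) := by
  classical
  refine Matrix.ext fun i j => MvPowerSeries.ext fun m => ?_
  rw [coeff_seriesHom, MvPowerSeries.coeff_X, Matrix.scalar_apply, Matrix.diagonal_apply]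
  rcases eq_or_ne i j with rfl | hij
  · rw [if_pos rfl, MvPowerSeries.coeff_X]
    split_ifs <;> simp
  · rw [if_neg hij, map_zero]
    split_ifs <;> simp [hij]

theorem seriesHom_intertwine (A : Matrix (Fin D') (Fin D) T) {f : MvPowerSeries σ R}
    {g : MvPowerSeries σ R'}
    (h : ∀ m, A * ρ (MvPowerSeries.coeff m f) = ρ' (MvPowerSeries.coeff m g) * A) :
    A.map MvPowerSeries.C * seriesHom ρ f = seriesHom ρ' g * A.map MvPowerSeries.C := by
  refine Matrix.ext fun i j => MvPowerSeries.ext fun m => ?_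
  simp only [Matrix.mul_apply, map_sum, Matrix.map_apply, MvPowerSeries.coeff_C_mul,
    MvPowerSeries.coeff_mul_C, coeff_seriesHom]
  exact congrFun (congrFun (h m) i) j

theorem seriesHom_eq_mul (A : Matrix (Fin D) (Fin D') T) {f : MvPowerSeries σ R}
    (h : ∀ m, ∃ B, ρ (MvPowerSeries.coeff m f) = A * B) :
    ∃ B : Matrix (Fin D') (Fin D) (MvPowerSeries σ T),
      seriesHom ρ f = A.map MvPowerSeries.C * B := by
  choose B hB using h
  refine ⟨Matrix.of fun i j => ((fun m => B m i j) : MvPowerSeries σ T), ?_⟩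
  refine Matrix.ext fun i j => MvPowerSeries.ext fun m => ?_
  rw [coeff_seriesHom, hB]
  simp only [Matrix.mul_apply, map_sum, Matrix.map_apply, MvPowerSeries.coeff_C_mul]
  rfl

end Series

variable {O : Type} [CommRing O] [IsLocalRing O] {d r p : ℕ} [Fact p.Prime] {n : ℕ} {e : Fin r → ℕ}

local notation "𝕊" => MvPowerSeries (Fin d) O

theorem X_mem_maximalIdeal (j : Fin d) : (MvPowerSeries.X j : 𝕊) ∈ maximalIdeal 𝕊 := by
  rw [mem_maximalIdeal, mem_nonunits_iff, MvPowerSeries.isUnit_iff_constantCoeff,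
    MvPowerSeries.constantCoeff_X]
  exact not_isUnit_zero

variable (n) in
/-- A variable at level `n`. -/
def yVar (j : Fin d) : Lvl 𝕊 n := Ideal.Quotient.mk _ (MvPowerSeries.X j)

omit [Fact p.Prime] in
theorem one_add_yVar_pow (hpO : (p : O) ∈ maximalIdeal O) {k : ℕ} (hk : n ≤ k) (j : Fin d) :
    (1 + yVar n j : Lvl 𝕊 n) ^ p ^ k = 1 := by
  have hp𝕊 : (p : 𝕊) ∈ maximalIdeal 𝕊 := by
    rw [mem_maximalIdeal, mem_nonunits_iff, MvPowerSeries.isUnit_iff_constantCoeff, map_natCast]
    exact hpO
  rw [yVar, ← map_one (Ideal.Quotient.mk (maximalIdeal 𝕊 ^ n)), ← map_add, ← map_pow,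
    Ideal.Quotient.eq]
  exact Ideal.pow_le_pow_right (hk.trans (Nat.le_succ _))
    (Assembly.one_add_pow_prime_pow_sub_one_mem hp𝕊 (X_mem_maximalIdeal j) k)

variable {σ : Type} (hpO : (p : O) ∈ maximalIdeal O) (eqv : Fin d ≃ Fin r ⊕ σ) (he : ∀ i, n ≤ e i)

/-- `O[Δ] → S/𝔪ⁿ`, `δ i ↦ 1 + X_i`. -/
def diamondEval : Alg O (ppow p e) →ₐ[O] Lvl 𝕊 n :=
  MonoidAlgebra.lift O (Lvl 𝕊 n) (Grp (ppow p e))
    (homOf (fun i => 1 + yVar n (eqv.symm (Sum.inl i))) fun i => one_add_yVar_pow hpO (he i) _)

theorem diamondEval_delta (i : Fin r) :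
    diamondEval hpO eqv he (delta O (N := ppow p e) i) = 1 + yVar n (eqv.symm (Sum.inl i)) := by
  simp only [diamondEval, delta, MonoidAlgebra.lift_of]
  exact homOf_gen _ _ i

variable [Finite σ]

omit [Finite σ] in
variable (n) in
theorem span_yVar_pow : Ideal.span (Set.range fun s : σ =>
    (yVar n (eqv.symm (Sum.inr s)) : Lvl 𝕊 n)) ^ n = ⊥ := by
  refine le_bot_iff.1 ?_
  calc Ideal.span (Set.range fun s : σ => (yVar n (eqv.symm (Sum.inr s)) : Lvl 𝕊 n)) ^ n
      ≤ ((maximalIdeal 𝕊).map (Ideal.Quotient.mk (maximalIdeal 𝕊 ^ n))) ^ n := by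
        refine Ideal.pow_right_mono (Ideal.span_le.2 ?_) n
        rintro _ ⟨s, rfl⟩
        exact Ideal.mem_map_of_mem _ (X_mem_maximalIdeal _)
    _ = ⊥ := by rw [← Ideal.map_pow, Ideal.map_quotient_self]

variable (n) in
/-- Evaluation of the frame variables. -/
def evalVars : MvPowerSeries σ (Lvl 𝕊 n) →ₐ[Lvl 𝕊 n] Lvl 𝕊 n :=
  Deformation.evalTrunc (fun s => yVar n (eqv.symm (Sum.inr s))) n (span_yVar_pow n eqv)

variable {P R R' : Type} [CommRing P] [Algebra O P] [CommRing R] [Algebra O R] [CommRing R']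
  [Algebra O R'] {D D' : ℕ}
  (Φ : P →ₐ[O] MvPowerSeries σ R) (Φ' : P →ₐ[O] MvPowerSeries σ R')
  (ρ : R →ₐ[O] Matrix (Fin D) (Fin D) (Alg O (ppow p e)))
  (ρ' : R' →ₐ[O] Matrix (Fin D') (Fin D') (Alg O (ppow p e)))

/-- The action of `P` at level `n`. -/
def levelAction : P →+* Matrix (Fin D) (Fin D) (Lvl 𝕊 n) :=
  ((evalVars n eqv).toRingHom.mapMatrix.comp
    (seriesHom ((diamondEval hpO eqv he).toRingHom.mapMatrix.comp ρ.toRingHom))).comp Φ.toRingHom

theorem levelAction_apply (f : P) : levelAction hpO eqv he Φ ρ f =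
    (seriesHom ((diamondEval hpO eqv he).toRingHom.mapMatrix.comp ρ.toRingHom) (Φ f)).map
      (evalVars n eqv) := rfl

/-- An element whose image is constant acts through `ρ`. -/
theorem levelAction_of_eq_C {f : P} {a : R} (hf : Φ f = MvPowerSeries.C a) :
    levelAction hpO eqv he Φ ρ f = (ρ a).map (diamondEval hpO eqv he) := by
  rw [levelAction_apply, hf, seriesHom_C, Matrix.map_map]
  refine Matrix.ext fun i j => ?_
  exact (evalVars n eqv).commutes _

theorem levelAction_algebraMap (c : O) : levelAction hpO eqv he Φ ρ (algebraMap O P c) =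
    Matrix.scalar (Fin D) (Ideal.Quotient.mk _ (MvPowerSeries.C c)) := by
  rw [levelAction_of_eq_C hpO eqv he Φ ρ (a := algebraMap O R c) (by
    rw [Φ.commutes, IsScalarTower.algebraMap_apply O R (MvPowerSeries σ R),
      MvPowerSeries.algebraMap_apply]; rfl), ρ.commutes, Matrix.algebraMap_eq_diagonal,
    Matrix.scalar_apply, Matrix.diagonal_map (map_zero _)]
  refine congrArg Matrix.diagonal (funext fun _ => ?_)
  exact (diamondEval hpO eqv he).commutes c

theorem levelAction_of_eq_X {f : P} {s : σ} (hf : Φ f = MvPowerSeries.X s) :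
    levelAction hpO eqv he Φ ρ f = Matrix.scalar (Fin D) (yVar n (eqv.symm (Sum.inr s))) := by
  rw [levelAction_apply, hf, seriesHom_X]
  refine (scalar_map (evalVars n eqv).toRingHom _).trans (congrArg _ ?_)
  exact Deformation.evalTrunc_X _ _ _ s

/-- The conditions at a node. -/
theorem isNode_levelAction (hΦ : Function.Surjective Φ) (a : Fin r → R)
    (ha : ∀ i, ρ (a i) = Matrix.scalar (Fin D) (delta O (N := ppow p e) i)) (I : Ideal P)
    (hkill : ∀ f ∈ I, ∀ m, ρ (MvPowerSeries.coeff m (Φ f)) = 0) :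
    IsNode I n (levelAction hpO eqv he Φ ρ) := by
  refine ⟨levelAction_algebraMap hpO eqv he Φ ρ, fun j => ?_, fun f hf => ?_⟩
  · obtain ⟨k, rfl⟩ := eqv.symm.surjective j
    rcases k with i | s
    · obtain ⟨g, hg⟩ := hΦ (MvPowerSeries.C (a i - 1))
      refine ⟨g, ?_⟩
      rw [levelAction_of_eq_C hpO eqv he Φ ρ hg, map_sub, map_one, ha]
      refine (congrArg (fun M => M.map (diamondEval hpO eqv he))
        (show Matrix.scalar (Fin D) (delta O (N := ppow p e) i) - 1 =
          Matrix.scalar (Fin D) (delta O (N := ppow p e) i - 1) by rw [map_sub, map_one])).trans ?_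
      refine (scalar_map (diamondEval hpO eqv he).toRingHom _).trans (congrArg _ ?_)
      show diamondEval hpO eqv he (delta O (N := ppow p e) i - 1) = _
      rw [map_sub, map_one, diamondEval_delta, add_sub_cancel_left]
      rfl
    · obtain ⟨g, hg⟩ := hΦ (MvPowerSeries.X s)
      exact ⟨g, levelAction_of_eq_X hpO eqv he Φ ρ hg⟩
  · rw [levelAction_apply]
    suffices seriesHom ((diamondEval hpO eqv he).toRingHom.mapMatrix.comp ρ.toRingHom) (Φ f) = 0 by
      rw [this, Matrix.map_zero _ (map_zero _)]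
    refine Matrix.ext fun i j => MvPowerSeries.ext fun m => ?_
    rw [coeff_seriesHom, RingHom.comp_apply]
    show ((ρ (MvPowerSeries.coeff m (Φ f))).map (diamondEval hpO eqv he)) i j = _
    rw [hkill f hf m, Matrix.map_zero _ (map_zero _)]
    rfl

/-- Equivariant matrices stay equivariant. -/
theorem levelAction_intertwine (A : Matrix (Fin D') (Fin D) (Alg O (ppow p e))) (f : P)
    (h : ∀ m, A * ρ (MvPowerSeries.coeff m (Φ f)) = ρ' (MvPowerSeries.coeff m (Φ' f)) * A) :
    A.map (diamondEval hpO eqv he) * levelAction hpO eqv he Φ ρ f =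
      levelAction hpO eqv he Φ' ρ' f * A.map (diamondEval hpO eqv he) := by
  have key := seriesHom_intertwine
    ((diamondEval hpO eqv he).toRingHom.mapMatrix.comp ρ.toRingHom)
    ((diamondEval hpO eqv he).toRingHom.mapMatrix.comp ρ'.toRingHom)
    (A.map (diamondEval hpO eqv he)) (f := Φ f) (g := Φ' f) fun m =>
      commute_map (diamondEval hpO eqv he).toRingHom (h m)
  have h2 := congrArg (fun M => M.map (evalVars n eqv)) key
  simp only [Matrix.map_mul, Matrix.map_map] at h2
  have hA : A.map (⇑(evalVars n eqv) ∘ ⇑MvPowerSeries.C ∘ ⇑(diamondEval hpO eqv he)) =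
      A.map (diamondEval hpO eqv he) :=
    Matrix.ext fun i j => (evalVars n eqv).commutes _
  rw [hA] at h2
  exact h2

/-- Divisibility passes to the level. -/
theorem exists_levelAction_eq_mul (A : Matrix (Fin D) (Fin D') (Alg O (ppow p e))) (f : P)
    (h : ∀ m, ∃ B, ρ (MvPowerSeries.coeff m (Φ f)) = A * B) :
    ∃ B, levelAction hpO eqv he Φ ρ f = A.map (diamondEval hpO eqv he) * B := by
  obtain ⟨B, hB⟩ := seriesHom_eq_mul
    ((diamondEval hpO eqv he).toRingHom.mapMatrix.comp ρ.toRingHom) (f := Φ f)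
    (A.map (diamondEval hpO eqv he)) fun m => by
      obtain ⟨B, hB⟩ := h m
      refine ⟨B.map (diamondEval hpO eqv he), ?_⟩
      show (ρ (MvPowerSeries.coeff m (Φ f))).map (diamondEval hpO eqv he) = _
      rw [hB, Matrix.map_mul]
  refine ⟨B.map (evalVars n eqv), ?_⟩
  rw [levelAction_apply, hB, Matrix.map_mul]
  congr 1
  exact Matrix.ext fun i j => (evalVars n eqv).commutes _

/-! ### Reduction to the augmentation -/

theorem maximalIdeal_pow_le_comap (n : ℕ) : maximalIdeal 𝕊 ^ n ≤
    RingHom.ker ((Ideal.Quotient.mk (maximalIdeal O ^ n)).comp MvPowerSeries.constantCoeff) := by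
  intro x hx
  rw [RingHom.mem_ker, RingHom.comp_apply, Ideal.Quotient.eq_zero_iff_mem]
  have h := Ideal.mem_map_of_mem (MvPowerSeries.constantCoeff : 𝕊 →+* O) hx
  rw [Ideal.map_pow] at h
  refine Ideal.pow_right_mono (Ideal.map_le_iff_le_comap.2 fun y hy => ?_) n h
  rw [Ideal.mem_comap, mem_maximalIdeal, mem_nonunits_iff]
  rwa [mem_maximalIdeal, mem_nonunits_iff, MvPowerSeries.isUnit_iff_constantCoeff] at hy

variable (d n) in
/-- `S/𝔪ⁿ → O/𝔪ⁿ`, all variables to `0`. -/
def augLvl : Lvl 𝕊 n →+* Lvl O n :=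
  Ideal.Quotient.lift _ _ fun _ hx => RingHom.mem_ker.1 (maximalIdeal_pow_le_comap n hx)

theorem augLvl_mk (x : 𝕊) : augLvl d n (Ideal.Quotient.mk _ x) =
    Ideal.Quotient.mk _ (MvPowerSeries.constantCoeff x) := rfl

theorem augLvl_redLvl {m : ℕ} (h : n ≤ m) (x : Lvl 𝕊 m) :
    augLvl d n (redLvl 𝕊 h x) = redLvl O h (augLvl d m x) := by
  obtain ⟨x, rfl⟩ := Ideal.Quotient.mk_surjective x
  rw [redLvl_mk, augLvl_mk, augLvl_mk, redLvl_mk]

omit [Finite σ] in
theorem augLvl_diamondEval (c : Alg O (ppow p e)) : augLvl d n (diamondEval hpO eqv he c) =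
    Ideal.Quotient.mk _ (aug O (ppow p e) c) := by
  have h : ((Ideal.Quotient.mk (maximalIdeal O ^ n)).comp (aug O (ppow p e)).toRingHom) =
      (augLvl d n).comp (diamondEval hpO eqv he).toRingHom := by
    refine MonoidAlgebra.ringHom_ext (fun a => ?_) fun v => ?_
    · show Ideal.Quotient.mk _ (aug O (ppow p e) (algebraMap O _ a)) =
        augLvl d n (diamondEval hpO eqv he (algebraMap O _ a))
      rw [AlgHom.commutes, AlgHom.commutes]
      exact (congrArg (Ideal.Quotient.mk _) (MvPowerSeries.constantCoeff_C a).symm)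
    · let g₁ : Grp (ppow p e) →* Lvl O n :=
        ((Ideal.Quotient.mk (maximalIdeal O ^ n)).comp (aug O (ppow p e)).toRingHom).toMonoidHom.comp
          (MonoidAlgebra.of O _)
      let g₂ : Grp (ppow p e) →* Lvl O n :=
        ((augLvl d n).comp (diamondEval hpO eqv he).toRingHom).toMonoidHom.comp
          (MonoidAlgebra.of O _)
      refine DFunLike.congr_fun (hom_ext (f := g₁) (g := g₂) fun i => ?_) v
      show Ideal.Quotient.mk _ (aug O (ppow p e) (delta O i)) =
        augLvl d n (diamondEval hpO eqv he (delta O i))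
      rw [diamondEval_delta, map_add, map_one, yVar, augLvl_mk, MvPowerSeries.constantCoeff_X,
        map_zero, add_zero]
      simp [aug, delta, MonoidAlgebra.lift_single]
  exact (RingHom.congr_fun h c).symm

theorem augLvl_evalVars (g : MvPowerSeries σ (Lvl 𝕊 n)) :
    augLvl d n (evalVars n eqv g) = augLvl d n (MvPowerSeries.constantCoeff g) := by
  have h := Ideal.mem_map_of_mem (evalVars n eqv)
    (Deformation.sub_algebraMap_constantCoeff_mem g)
  rw [Ideal.map_span, ← Set.range_comp] at h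
  have hle : Ideal.span (Set.range (⇑(evalVars n eqv) ∘ MvPowerSeries.X)) ≤
      RingHom.ker (augLvl (O := O) d n) := by
    refine Ideal.span_le.2 ?_
    rintro _ ⟨s, rfl⟩
    rw [SetLike.mem_coe, RingHom.mem_ker, Function.comp_apply, evalVars, Deformation.evalTrunc_X,
      yVar, augLvl_mk, MvPowerSeries.constantCoeff_X, map_zero]
  have h' := RingHom.mem_ker.1 (hle h)
  rwa [map_sub, map_sub, sub_eq_zero, AlgHom.commutes, Algebra.algebraMap_self,
    RingHom.id_apply] at h'

/-- At the augmentation the level is the reduction of `ρ` at the constant coefficient. -/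
theorem levelAction_aug (f : P) : (levelAction hpO eqv he Φ ρ f).map (augLvl d n) =
    (ρ (MvPowerSeries.constantCoeff (Φ f))).map
      ((Ideal.Quotient.mk (maximalIdeal O ^ n)).comp (aug O (ppow p e)).toRingHom) := by
  refine Matrix.ext fun i j => ?_
  rw [levelAction_apply, Matrix.map_apply, Matrix.map_apply, Matrix.map_apply, augLvl_evalVars,
    ← MvPowerSeries.coeff_zero_eq_constantCoeff_apply, coeff_seriesHom]
  exact augLvl_diamondEval hpO eqv he _

/-- Identities at the augmentation pass to the limit. -/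
theorem map_constantCoeff_eq [IsAdicComplete (maximalIdeal O) O] {m m' : Type}
    {A : Matrix m m' 𝕊} {A₀ : Matrix m m' O}
    (h : ∀ k, (A.map (Ideal.Quotient.mk (maximalIdeal 𝕊 ^ k))).map (augLvl d k) =
      A₀.map (Ideal.Quotient.mk (maximalIdeal O ^ k))) :
    A.map MvPowerSeries.constantCoeff = A₀ :=
  eq_of_forall_map fun k => by
    rw [← h k]
    exact Matrix.ext fun i j => (augLvl_mk (A i j)).symm

end Fermat.Agent.Lifting.Patching

end
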