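import Fermat.Agent.Lifting.Patching.Module

/-!
# Consequences for the supports of the patched modules

The step from one level to the next: if the source `M` is alive at the special prime `𝔔`, the only
candidate of the cokernel through `𝔔` is the target component, and the composite `β ∘ α` is
degenerate modulo `𝔔`, then the target component is hit by `A`. And the descent of a point on a hit
component to the module at the augmentation.
-/

set_option autoImplicit false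

noncomputable section

open IsLocalRing

namespace Fermat.Agent.Lifting.Patching

variable {S : Type} [CommRing S] [IsDomain S] [IsLocalRing S] [IsNoetherianRing S]
  {P : Type} [CommRing P] {DM DA DC : ℕ}
  {ρM : P →+* Matrix (Fin DM) (Fin DM) S} {ρA : P →+* Matrix (Fin DA) (Fin DA) S}
  {ρC : P →+* Matrix (Fin DC) (Fin DC) S}

/-- Either the cokernel vanishes at `𝔔` or the target is hit by `A`. -/
theorem exists_kill_of_not_hit {φ : S →+* P} (hφ : ∀ s, ρC (φ s) = Matrix.scalar (Fin DC) s)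
    {ι : Type*} (T : Finset ι) (K : ι → Ideal P) (hKp : ∀ i ∈ T, (K i).IsPrime)
    (hK : ∀ i ∈ T, ∃ ψ : S →+* P ⧸ K i, ψ.IsIntegral)
    (hsupp : ∀ f ∈ ∏ i ∈ T, K i, ρC f = 0)
    {𝔔 : Ideal P} (h𝔔 : 𝔔.IsPrime) {Kt : Ideal P} (hT : ∀ i ∈ T, K i ≤ 𝔔 → K i = Kt)
    {Q : Matrix (Fin DC) (Fin DA) S} (hQ : ∀ f, Q * ρA f = ρC f * Q)
    {Y : Matrix (Fin DA) (Fin DC) S} (hQY : Q * Y = 1)
    (hnot : ¬ Module.annihilator P (Space ρA) ≤ Kt) : ∃ a ∉ 𝔔, ρC a = 0 := by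
  by_contra h
  push Not at h
  obtain ⟨i, hi, hC, hi𝔔⟩ := Algebra.exists_hit_le (X := Space ρC) φ
    (Space.smul_eq ρC hφ) T K hKp hK (fun f hf => (Space.mem_annihilator ρC).2 (hsupp f hf)) h𝔔
    (fun a ha => by_contra fun ha' => h a ha' ((Space.mem_annihilator ρC).1 ha))
  exact hnot (((Space.annihilator_le_of_mul_eq_one hQ hQY).trans hC).trans (hT i hi hi𝔔).le)

/-- The step with a single copy of the source: `β ∘ α` is an element of `𝔔`. -/
theorem hit_of_flip {φM φC : S →+* P} (hφM : ∀ s, ρM (φM s) = Matrix.scalar (Fin DM) s)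
    (hφC : ∀ s, ρC (φC s) = Matrix.scalar (Fin DC) s)
    {ι : Type*} (T : Finset ι) (K : ι → Ideal P) (hKp : ∀ i ∈ T, (K i).IsPrime)
    (hK : ∀ i ∈ T, ∃ ψ : S →+* P ⧸ K i, ψ.IsIntegral)
    (hsupp : ∀ f ∈ ∏ i ∈ T, K i, ρC f = 0)
    {𝔔 : Ideal P} (h𝔔 : 𝔔.IsPrime) {Kt : Ideal P} (hT : ∀ i ∈ T, K i ≤ 𝔔 → K i = Kt)
    (hM : Module.annihilator P (Space ρM) ≤ 𝔔)
    {A : Matrix (Fin DA) (Fin DM) S} (hA : ∀ f, A * ρM f = ρA f * A)
    {B : Matrix (Fin DM) (Fin DA) S} (hB : ∀ f, B * ρA f = ρM f * B)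
    {Q : Matrix (Fin DC) (Fin DA) S} (hQ : ∀ f, Q * ρA f = ρC f * Q)
    {Λ : Matrix (Fin DM) (Fin DA) S} {Y : Matrix (Fin DA) (Fin DC) S}
    (hsplit : A * Λ + Y * Q = 1) (hQY : Q * Y = 1)
    {Z : Matrix (Fin DA) (Fin DM) S} (hBZ : B * Z = 1)
    {c : P} (hc : c ∈ 𝔔) (hBA : B * A = ρM c) :
    Module.annihilator P (Space ρA) ≤ Kt := by
  by_contra hnot
  obtain ⟨a, ha, haC⟩ := exists_kill_of_not_hit hφC T K hKp hK hsupp h𝔔 hT hQ hQY hnot
  have := Space.finite ρM hφM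
  refine Algebra.not_annihilator_le_of_flip h𝔔 (Space.edgeMap A hA) (Space.edgeMap B hB)
    (a := a) (b := 1) ha ((Ideal.ne_top_iff_one _).1 h𝔔.ne_top)
    (fun y => Space.smul_mem_range_of_split hA hQ hsplit haC y)
    (fun m => ?_) (fun m => ?_) hM
  · rw [one_smul]
    exact Space.edgeMap_surjective hB hBZ m
  · rw [Space.edgeMap_edgeMap hA hB hBA]
    exact Submodule.smul_mem_smul hc trivial

/-- The step with two copies of the source: `β ∘ α` is a matrix over `P` of determinant in `𝔔`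
and `β` is surjective up to an element outside `𝔔`. -/
theorem hit_of_flip_det {φM φC : S →+* P} (hφM : ∀ s, ρM (φM s) = Matrix.scalar (Fin DM) s)
    (hφC : ∀ s, ρC (φC s) = Matrix.scalar (Fin DC) s)
    {ι : Type*} (T : Finset ι) (K : ι → Ideal P) (hKp : ∀ i ∈ T, (K i).IsPrime)
    (hK : ∀ i ∈ T, ∃ ψ : S →+* P ⧸ K i, ψ.IsIntegral)
    (hsupp : ∀ f ∈ ∏ i ∈ T, K i, ρC f = 0)
    {𝔔 : Ideal P} (h𝔔 : 𝔔.IsPrime) {Kt : Ideal P} (hT : ∀ i ∈ T, K i ≤ 𝔔 → K i = Kt)
    (hM : Module.annihilator P (Space ρM) ≤ 𝔔)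
    {A : Fin 2 → Matrix (Fin DA) (Fin DM) S} (hA : ∀ j f, A j * ρM f = ρA f * A j)
    {B : Fin 2 → Matrix (Fin DM) (Fin DA) S} (hB : ∀ i f, B i * ρA f = ρM f * B i)
    {Q : Matrix (Fin DC) (Fin DA) S} (hQ : ∀ f, Q * ρA f = ρC f * Q)
    {Λ : Fin 2 → Matrix (Fin DM) (Fin DA) S} {Y : Matrix (Fin DA) (Fin DC) S}
    (hsplit : ∑ j, A j * Λ j + Y * Q = 1) (hQY : Q * Y = 1)
    {e : P} (he : e ∉ 𝔔) {Z : Fin 2 → Matrix (Fin DA) (Fin DM) S}
    (hBZ : ∀ i j, B i * Z j = if i = j then ρM e else 0)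
    {C : Matrix (Fin 2) (Fin 2) P} (hC : C.det ∈ 𝔔) (hBA : ∀ i j, B i * A j = ρM (C i j)) :
    Module.annihilator P (Space ρA) ≤ Kt := by
  classical
  by_contra hnot
  obtain ⟨a, ha, haC⟩ := exists_kill_of_not_hit hφC T K hKp hK hsupp h𝔔 hT hQ hQY hnot
  have := Space.finite ρM hφM
  let α : (Fin 2 → Space ρM) →ₗ[P] Space ρA :=
    ∑ j, (Space.edgeMap (A j) (hA j)).comp (LinearMap.proj j)
  let β : Space ρA →ₗ[P] (Fin 2 → Space ρM) := LinearMap.pi fun i => Space.edgeMap (B i) (hB i)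
  have hα : ∀ x : Fin 2 → Space ρM, Space.toVec ρA (α x) =
      ∑ j, (A j).mulVec (Space.toVec ρM (x j)) := fun x => by
    simp only [α, LinearMap.sum_apply, LinearMap.comp_apply, LinearMap.proj_apply]
    rfl
  refine Algebra.not_annihilator_le_of_flip_det h𝔔 α β C hC
    (a := a) (b := e) ha he
    (fun y => ?_) (fun m => ?_) (fun m i => ?_) hM
  · refine ⟨fun j => Space.ofVec ρM ((Λ j).mulVec ((ρA a).mulVec (Space.toVec ρA y))), ?_⟩
    show Space.toVec ρA (α _) = (ρA a).mulVec (Space.toVec ρA y)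
    rw [hα]
    show ∑ j, (A j).mulVec ((Λ j).mulVec ((ρA a).mulVec (Space.toVec ρA y))) = _
    simp only [Matrix.mulVec_mulVec, ← Matrix.sum_mulVec]
    congr 1
    simp only [← Matrix.mul_assoc, ← Matrix.sum_mul]
    calc (∑ j, A j * Λ j) * ρA a = (∑ j, A j * Λ j) * ρA a + Y * (Q * ρA a) := by
          rw [hQ, haC, Matrix.zero_mul, Matrix.mul_zero, add_zero]
      _ = ρA a := by rw [← Matrix.mul_assoc, ← Matrix.add_mul, hsplit, Matrix.one_mul]
  · refine ⟨Space.ofVec ρA (∑ j, (Z j).mulVec (Space.toVec ρM (m j))), funext fun i => ?_⟩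
    show (B i).mulVec (∑ j, (Z j).mulVec (Space.toVec ρM (m j))) =
      (ρM e).mulVec (Space.toVec ρM (m i))
    rw [Matrix.mulVec_sum, Finset.sum_eq_single i (fun j _ hj => by
      rw [Matrix.mulVec_mulVec, hBZ, if_neg hj.symm, Matrix.zero_mulVec]) (by simp),
      Matrix.mulVec_mulVec, hBZ, if_pos rfl]
  · show (B i).mulVec (Space.toVec ρA (α m)) = ∑ j, (ρM (C i j)).mulVec (Space.toVec ρM (m j))
    rw [hα, Matrix.mulVec_sum]
    exact Finset.sum_congr rfl fun j _ => by rw [Matrix.mulVec_mulVec, hBA]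

section Descent

variable {O : Type} [CommRing O] [Algebra O P] {d D : ℕ}
  {ρ : P →+* Matrix (Fin D) (Fin D) (MvPowerSeries (Fin d) O)}

/-- A prime on the support containing the variables contains everything acting by `0` at the
augmentation. -/
theorem mem_of_constantCoeff_eq_zero {φ : MvPowerSeries (Fin d) O →ₐ[O] P}
    (hφ : ∀ s, ρ (φ s) = Matrix.scalar (Fin D) s) {𝔓 : Ideal P} (h𝔓 : 𝔓.IsPrime)
    (hann : Module.annihilator P (Space ρ) ≤ 𝔓) (hX : ∀ i, φ (MvPowerSeries.X i) ∈ 𝔓)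
    {f : P} (hf : (ρ f).map MvPowerSeries.constantCoeff = 0) : f ∈ 𝔓 := by
  refine mem_of_map_eq_zero (φ := φ.toRingHom) hφ h𝔓 hann MvPowerSeries.constantCoeff
    (fun s hs => ?_) hf
  have h := Ideal.mem_map_of_mem φ (Deformation.sub_algebraMap_constantCoeff_mem s)
  rw [hs, map_zero, sub_zero, Ideal.map_span, ← Set.range_comp] at h
  refine Ideal.span_le.2 ?_ h
  rintro _ ⟨i, rfl⟩
  exact hX i

end Descent

end Fermat.Agent.Lifting.Patching

end
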