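import Fermat.Agent.Lifting.Patching.Module
import Fermat.Agent.Lifting.Algebra.Main

/-!
# Compactness for elements of `P`, and common eigenvectors

* `exists_mem_of_forall`: conditions which are open, decreasing and satisfiable at every level have
  a common solution.
* `exists_retraction`, `exists_substitution`: the homomorphisms of `P` removing one free variable.
* `exists_common_eigenvector`: a point on the image of a commutative action has an eigenvector.
-/

set_option autoImplicit false

noncomputable section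

open IsLocalRing Fermat.Agent.RT.Patch

namespace Fermat.Agent.Lifting.Patching

variable {A : Type} [CommRing A] [IsLocalRing A] [IsNoetherianRing A]
  [IsAdicComplete (maximalIdeal A) A] [Finite (ResidueField A)]

/-- Open, decreasing, non-empty conditions at all levels have a common solution. -/
theorem exists_mem_of_forall (Q : ℕ → Set A) (hmono : ∀ n, Q (n + 1) ⊆ Q n)
    (hne : ∀ n, (Q n).Nonempty)
    (hopen : ∀ n, ∃ N, ∀ x ∈ Q n, ∀ y, x - y ∈ maximalIdeal A ^ N → y ∈ Q n) :
    ∃ x, ∀ n, x ∈ Q n := by
  choose N₀ hN₀ using hopen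
  let N : ℕ → ℕ := fun n => n + ∑ i ∈ Finset.range (n + 1), N₀ i
  have hNmono : ∀ n, N n ≤ N (n + 1) := fun n => by
    have := Finset.sum_range_succ N₀ (n + 1)
    simp only [N]
    omega
  have hNge : ∀ n, N₀ n ≤ N n := fun n => by
    have := Finset.single_le_sum (f := N₀) (fun i _ => Nat.zero_le _) (Finset.self_mem_range_succ n)
    simp only [N]
    omega
  have hN : ∀ n, ∀ x ∈ Q n, ∀ y, x - y ∈ maximalIdeal A ^ N n → y ∈ Q n := fun n x hx y h =>
    hN₀ n x hx y (Ideal.pow_le_pow_right (hNge n) h)
  let F : ℕ → Type := fun n =>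
    {a : Lvl A (N n) // ∀ f : A, Ideal.Quotient.mk _ f = a → f ∈ Q n}
  have : ∀ n, Nonempty (F n) := fun n => by
    obtain ⟨f, hf⟩ := hne n
    exact ⟨⟨Ideal.Quotient.mk _ f, fun g hg => hN n f hf g (Ideal.Quotient.eq.1 hg.symm)⟩⟩
  have : ∀ n, Finite (F n) := fun n => Subtype.finite
  let r : ∀ n, F (n + 1) → F n := fun n a => ⟨redLvl A (hNmono n) a.1, fun f hf => by
    obtain ⟨g, hg⟩ := Ideal.Quotient.mk_surjective a.1
    have h1 := a.2 g hg
    rw [← hg, redLvl_mk] at hf
    exact hN n g (hmono n h1) f (Ideal.Quotient.eq.1 hf.symm)⟩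
  obtain ⟨s, hs⟩ := exists_compatible_sequence F r
  replace hs : ∀ n, redLvl A (hNmono n) (s (n + 1)).1 = (s n).1 := fun n =>
    congrArg Subtype.val (hs n)
  obtain ⟨x, hx⟩ := exists_lift_of_compatible (S := A)
    (fun n => redLvl A (Nat.le_add_right n _) (s n).1) fun n => by
      obtain ⟨g, hg⟩ := Ideal.Quotient.mk_surjective (s (n + 1)).1
      rw [← hs n, ← hg, redLvl_mk, redLvl_mk, redLvl_mk, redLvl_mk]
  have hiter : ∀ n n' (h : n ≤ n') (hN' : N n ≤ N n'),
      redLvl A hN' (s n').1 = (s n).1 := by
    intro n n' h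
    induction n', h using Nat.le_induction with
    | base =>
      intro hN'
      obtain ⟨g, hg⟩ := Ideal.Quotient.mk_surjective (s n).1
      rw [← hg, redLvl_mk]
    | succ k hk ih =>
      intro hN'
      have hNk : N n ≤ N k := by
        clear ih hN'
        induction k, hk using Nat.le_induction with
        | base => exact le_rfl
        | succ l _ ihl => exact ihl.trans (hNmono l)
      rw [← ih hNk, ← hs k]
      obtain ⟨g, hg⟩ := Ideal.Quotient.mk_surjective (s (k + 1)).1
      rw [← hg, redLvl_mk, redLvl_mk, redLvl_mk]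
  refine ⟨x, fun n => (s n).2 x ?_⟩
  have h := hx (N n)
  obtain ⟨g, hg⟩ := Ideal.Quotient.mk_surjective (s (N n)).1
  have hnN : n ≤ N n := Nat.le_add_right n _
  have hNN : N n ≤ N (N n) := Nat.le_add_right (N n) _
  rw [← hg, redLvl_mk] at h
  rw [h, ← hiter n (N n) hnN hNN, ← hg, redLvl_mk]

omit [IsNoetherianRing A] [IsAdicComplete (maximalIdeal A) A] [Finite (ResidueField A)] in
theorem exists_pow_le_ker {R : Type*} [Ring R] [Finite R] (ρ : A →+* R) :
    ∃ N, ∀ x y : A, x - y ∈ maximalIdeal A ^ N → ρ x = ρ y :=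
  ⟨_, fun _ _ h => sub_eq_zero.1 ((map_sub ρ _ _).symm.trans
    (RingHom.mem_ker.1 (pow_maximalIdeal_le_ker ρ h)))⟩

/-- A property holding at every level for one of finitely many indices, downwards closed in the
level, holds at every level for one index. -/
theorem exists_forall_of_forall_exists {ι : Type*} [Finite ι] (p : ι → ℕ → Prop)
    (hmono : ∀ i n, p i (n + 1) → p i n) (h : ∀ n, ∃ i, p i n) : ∃ i, ∀ n, p i n := by
  by_contra hcon
  push Not at hcon
  choose b hb using hcon
  cases nonempty_fintype ι
  obtain ⟨i, hi⟩ := h (Finset.univ.sup b)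
  have : ∀ k, p i (b i + k) → p i (b i) := by
    intro k
    induction k with
    | zero => exact id
    | succ k ih => exact fun hk => ih (hmono _ _ hk)
  refine hb i (this (Finset.univ.sup b - b i) ?_)
  rwa [Nat.add_sub_cancel' (Finset.le_sup (Finset.mem_univ i))]

section Eigen

variable {O : Type} [CommRing O] [IsDomain O] [IsNoetherianRing O] {P : Type} [CommRing P]
  [Algebra O P] {D : ℕ}

/-- A point of the image of a commutative action on `O^D` has an eigenvector. -/
theorem exists_common_eigenvector (ρ : P →+* Matrix (Fin D) (Fin D) O)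
    (hρ : ∀ c, ρ (algebraMap O P c) = Matrix.scalar (Fin D) c) (F : P →ₐ[O] O)
    (hF : ∀ f, ρ f = 0 → F f = 0) :
    ∃ w : Fin D → O, w ≠ 0 ∧ ∀ f, (ρ f).mulVec w = F f • w := by
  classical
  let M := Space ρ
  set I := Module.annihilator P M with hI
  have hIF : I ≤ RingHom.ker F := fun f hf => hF f ((Space.mem_annihilator ρ).1 hf)
  -- `P ⧸ I` is finite over `O`
  let A := P ⧸ I
  let _ : Module A M := Module.quotientAnnihilator
  have hscal : ∀ (c : O) (x : M), algebraMap O P c • x = c • x := fun c x =>
    Space.smul_eq ρ (φ := algebraMap O P) hρ c x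
  have : IsScalarTower O A M := IsScalarTower.of_algebraMap_smul fun c x => by
    rw [IsScalarTower.algebraMap_apply O P A]
    exact hscal c x
  let e : A →ₗ[O] Matrix (Fin D) (Fin D) O :=
    { toFun := Ideal.Quotient.lift I ρ fun f hf => (Space.mem_annihilator ρ).1 hf
      map_add' := map_add _
      map_smul' := fun c a => by
        rw [Algebra.smul_def, map_mul, IsScalarTower.algebraMap_apply O P A]
        show ρ (algebraMap O P c) * _ = _
        rw [hρ, RingHom.id_apply, Matrix.scalar_apply, ← Matrix.smul_eq_diagonal_mul] }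
  have he : Function.Injective e := fun a b hab => by
    obtain ⟨a, rfl⟩ := Ideal.Quotient.mk_surjective a
    obtain ⟨b, rfl⟩ := Ideal.Quotient.mk_surjective b
    rw [Ideal.Quotient.eq]
    refine (Space.mem_annihilator ρ).2 ?_
    rw [map_sub, sub_eq_zero]
    exact hab
  have : Module.Finite O A := Module.Finite.of_injective e he
  have : IsNoetherianRing A := isNoetherian_of_tower O inferInstance
  have : Algebra.IsIntegral O A := Algebra.IsIntegral.of_finite O A
  have : Module.Finite A M := Module.Finite.of_restrictScalars_finite O A M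
  let Fq : A →ₐ[O] O := Ideal.Quotient.liftₐ I F fun f hf => RingHom.mem_ker.1 (hIF hf)
  set 𝔭 : Ideal A := RingHom.ker Fq with h𝔭
  have : 𝔭.IsPrime := RingHom.ker_isPrime _
  have hann : Module.annihilator A M = ⊥ := by
    refine eq_bot_iff.2 fun a ha => ?_
    obtain ⟨a, rfl⟩ := Ideal.Quotient.mk_surjective a
    refine Ideal.Quotient.eq_zero_iff_mem.2 (Module.mem_annihilator.2 fun x => ?_)
    exact Module.mem_annihilator.1 ha x
  have hmin : 𝔭 ∈ (Module.annihilator A M).minimalPrimes := by
    rw [hann]
    refine ⟨⟨inferInstance, bot_le⟩, fun q hq hqp => ?_⟩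
    by_contra hne
    have hlt : q < 𝔭 := lt_of_le_not_ge hqp hne
    have := hq.1
    have h1 := Ideal.IsIntegral.comap_lt_comap (R := O) hlt
    have h2 : 𝔭.comap (algebraMap O A) = ⊥ := eq_bot_iff.2 fun c hc => by
      have : Fq (algebraMap O A c) = 0 := hc
      simpa using this
    rw [h2] at h1
    exact not_lt_bot h1
  have hass := Module.associatedPrimes.minimalPrimes_annihilator_subset_associatedPrimes A M hmin
  obtain ⟨-, w, hw⟩ := isAssociatedPrime_iff.1 hass
  refine ⟨Space.toVec ρ w, fun h0 => ?_, fun f => ?_⟩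
  · refine (Ideal.IsPrime.ne_top ‹𝔭.IsPrime›) ((Ideal.eq_top_iff_one _).2 (hw ▸ ?_))
    rw [Submodule.mem_colon_singleton]
    exact (one_smul A w).symm ▸ (show w = 0 from h0)
  · have hmem : Ideal.Quotient.mk I (f - algebraMap O P (F f)) ∈ 𝔭 := by
      show F (f - algebraMap O P (F f)) = 0
      rw [map_sub, F.commutes, Algebra.algebraMap_self, RingHom.id_apply, sub_self]
    rw [hw, Submodule.mem_colon_singleton, Submodule.mem_bot] at hmem
    have h : (f - algebraMap O P (F f)) • w = 0 := hmem
    rw [sub_smul, hscal, sub_eq_zero] at h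
    exact h

end Eigen

end Fermat.Agent.Lifting.Patching

end
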