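import Fermat.Agent.Lifting.Algebra.GenericPrime
import Fermat.Agent.RT.Generators

/-!
# An element solving for one free variable avoids the prime of the raising step

`eraseVar t` sets the free variable `X_t` to zero. If `e = X_t + F` with `F` fixed by `eraseVar t`,
then `e` is not in the prime of characteristic zero used by the raising step.
-/

set_option autoImplicit false
set_option linter.unusedSectionVars false
set_option linter.overlappingInstances false

noncomputable section

namespace Fermat.Agent.Lifting.Patching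

open IsLocalRing Fermat.Agent.RT.LocalRing Fermat.Agent.Lifting.Algebra

variable {O : Type} [CommRing O] [IsLocalRing O] [IsNoetherianRing O]
  [IsAdicComplete (maximalIdeal O) O] {J τ : Type} [Finite J] [Finite τ] [DecidableEq τ]

theorem X_mem_psr (i : Idx J τ) :
    (MvPowerSeries.X i : PSR J τ O) ∈ maximalIdeal (PSR J τ O) := by
  rw [mem_maximalIdeal, mem_nonunits_iff, MvPowerSeries.isUnit_iff_constantCoeff,
    MvPowerSeries.constantCoeff_X]
  exact not_isUnit_zero

theorem exists_eraseVar (t : τ) : ∃ r : PSR J τ O →ₐ[O] PSR J τ O,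
    r (MvPowerSeries.X (Sum.inr t)) = 0 ∧
      ∀ i, i ≠ Sum.inr t → r (MvPowerSeries.X i) = MvPowerSeries.X i := by
  classical
  have := mvPowerSeries_isAdicComplete (O := O) (σ := Idx J τ)
  obtain ⟨r, hr⟩ := RT.exists_eval (L := O) (R := PSR J τ O)
    (fun i : Idx J τ => if i = Sum.inr t then 0 else MvPowerSeries.X i) fun i => by
      split_ifs
      · exact zero_mem _
      · exact X_mem_psr i
  exact ⟨r, by rw [hr, if_pos rfl], fun i hi => by rw [hr, if_neg hi]⟩

/-- The free variable `X_t` set to zero. -/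
def eraseVar (t : τ) : PSR J τ O →ₐ[O] PSR J τ O := (exists_eraseVar t).choose

theorem eraseVar_X_self (t : τ) :
    eraseVar (O := O) (J := J) t (MvPowerSeries.X (Sum.inr t)) = 0 :=
  (exists_eraseVar t).choose_spec.1

theorem eraseVar_X_of_ne (t : τ) {i : Idx J τ} (hi : i ≠ Sum.inr t) :
    eraseVar (O := O) t (MvPowerSeries.X i) = MvPowerSeries.X i :=
  (exists_eraseVar t).choose_spec.2 i hi

omit [IsNoetherianRing O] [IsAdicComplete (maximalIdeal O) O] [DecidableEq τ] [Finite J] [Finite τ] in
/-- A homomorphism sending the variables into the maximal ideal is local. -/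
theorem map_mem_maximalIdeal {σ σ' : Type} [Finite σ]
    (f : MvPowerSeries σ O →ₐ[O] MvPowerSeries σ' O)
    (hf : ∀ i, f (MvPowerSeries.X i) ∈ maximalIdeal (MvPowerSeries σ' O))
    {x : MvPowerSeries σ O} (hx : x ∈ maximalIdeal (MvPowerSeries σ O)) :
    f x ∈ maximalIdeal (MvPowerSeries σ' O) := by
  have hc : MvPowerSeries.constantCoeff x ∈ maximalIdeal O := by
    rwa [mem_maximalIdeal, mem_nonunits_iff, MvPowerSeries.isUnit_iff_constantCoeff] at hx
  rw [← sub_add_cancel x (algebraMap O _ (MvPowerSeries.constantCoeff x)), map_add, f.commutes]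
  refine add_mem ?_ ?_
  · have h := Ideal.mem_map_of_mem f (Deformation.sub_algebraMap_constantCoeff_mem x)
    rw [Ideal.map_span] at h
    refine Ideal.span_le.2 ?_ h
    rintro _ ⟨_, ⟨i, rfl⟩, rfl⟩
    exact hf i
  · rw [mem_maximalIdeal, mem_nonunits_iff, MvPowerSeries.isUnit_iff_constantCoeff]
    simpa [MvPowerSeries.algebraMap_apply] using hc

omit [DecidableEq τ] in
/-- Elements congruent modulo `I + 𝔪ⁿ` for all `n` are congruent modulo `I`. -/
theorem mem_of_forall_mem_sup {A : Type*} [CommRing A] [IsLocalRing A] [IsNoetherianRing A]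
    (I : Ideal A) {x : A} (h : ∀ n, x ∈ I ⊔ maximalIdeal A ^ n) : x ∈ I := by
  rcases eq_or_ne I ⊤ with rfl | hI
  · trivial
  have : Nontrivial (A ⧸ I) := Ideal.Quotient.nontrivial_iff.2 hI
  have : IsLocalRing (A ⧸ I) := .of_surjective' (Ideal.Quotient.mk I) Ideal.Quotient.mk_surjective
  rw [← Ideal.Quotient.eq_zero_iff_mem, ← Ideal.mem_bot,
    ← Ideal.iInf_pow_eq_bot_of_isLocalRing ((maximalIdeal A).map (Ideal.Quotient.mk I)) ?_]
  · refine Ideal.mem_iInf.2 fun n => ?_
    have := Ideal.mem_map_of_mem (Ideal.Quotient.mk I) (h n)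
    rwa [Ideal.map_sup, Ideal.map_quotient_self, bot_sup_eq, Ideal.map_pow] at this
  · intro htop
    have := congrArg (Ideal.comap (Ideal.Quotient.mk I)) htop
    rw [Ideal.comap_map_of_surjective _ Ideal.Quotient.mk_surjective, Ideal.comap_top,
      ← RingHom.ker_eq_comap_bot, Ideal.mk_ker, sup_of_le_left (le_maximalIdeal hI)] at this
    exact (maximalIdeal.isMaximal A).ne_top this

/-- Two homomorphisms out of the power series ring agreeing on the variables agree modulo any
ideal of a noetherian local ring, if they send the variables into the maximal ideal. -/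
theorem sub_mem_of_forall_X {F G : PSR J τ O →ₐ[O] PSR J τ O} (I : Ideal (PSR J τ O))
    (hF : ∀ i, F (MvPowerSeries.X i) ∈ maximalIdeal (PSR J τ O))
    (hG : ∀ i, G (MvPowerSeries.X i) ∈ maximalIdeal (PSR J τ O))
    (h : ∀ i, F (MvPowerSeries.X i) - G (MvPowerSeries.X i) ∈ I) (f : PSR J τ O) :
    F f - G f ∈ I := by
  refine mem_of_forall_mem_sup I fun n => ?_
  let π := Ideal.Quotient.mkₐ O (I ⊔ maximalIdeal (PSR J τ O) ^ n)
  have hle : ∀ H : PSR J τ O →ₐ[O] PSR J τ O,
      (∀ i, H (MvPowerSeries.X i) ∈ maximalIdeal (PSR J τ O)) →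
      Deformation.varsIdeal (Idx J τ) O ^ n ≤ RingHom.ker (π.comp H) := by
    intro H hH z hz
    rw [RingHom.mem_ker, AlgHom.comp_apply]
    refine Ideal.Quotient.eq_zero_iff_mem.mpr (Ideal.mem_sup_right ?_)
    refine Ideal.pow_right_mono ?_ n (Ideal.map_pow H _ n ▸ Ideal.mem_map_of_mem H hz)
    rw [Ideal.map_span, Ideal.span_le]
    rintro _ ⟨_, ⟨i, rfl⟩, rfl⟩
    exact hH i
  have := AlgHom.congr_fun (Deformation.algHom_ext_of_pow_le_ker n (hle F hF) (hle G hG)
    fun i => Ideal.Quotient.eq.2 (Ideal.mem_sup_left (h i))) f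
  exact Ideal.Quotient.eq.1 this

variable [IsDomain O] [IsDiscreteValuationRing O] [Finite (ResidueField O)] [CharZero O]
  [DecidableEq J] {S : J → Site O} {c : J → Ty} {D : Finset J}

/-- An element `X_t + F`, with `F` not involving `X_t`, avoids the prime. -/
theorem not_mem_genericPrime_of_erase (h2 : IsUnit (2 : O)) (hc : ∀ j, (S j).Allowed (c j))
    (hD : ∀ j ∈ D, c j = .same ∧ (S j).b₀ ∈ maximalIdeal O) (t : τ) {e : PSR J τ O}
    (he : eraseVar t (e - MvPowerSeries.X (Sum.inr t)) = e - MvPowerSeries.X (Sum.inr t)) :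
    e ∉ genericPrime S τ c D := by
  classical
  intro hmem
  have hprime := genericPrime_isPrime (τ := τ) h2 hc hD
  set F := e - MvPowerSeries.X (Sum.inr t) with hFdef
  have hF : F ∈ maximalIdeal (PSR J τ O) :=
    sub_mem (le_maximalIdeal hprime.ne_top hmem) (X_mem_psr _)
  let τ' := {s : τ // s ≠ t}
  have := mvPowerSeries_isAdicComplete (O := O) (σ := Idx J τ)
  have := mvPowerSeries_isAdicComplete (O := O) (σ := Idx J τ')
  let emb : Idx J τ' → Idx J τ := Sum.map id Subtype.val
  obtain ⟨ι, hι⟩ := RT.exists_eval (L := O) (R := PSR J τ O)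
    (fun i : Idx J τ' => MvPowerSeries.X (emb i)) fun i => X_mem_psr _
  obtain ⟨π, hπ⟩ := RT.exists_eval (L := O) (R := PSR J τ' O)
    (fun i : Idx J τ => Sum.elim (fun x => MvPowerSeries.X (Sum.inl x))
      (fun s => if h : s = t then 0 else MvPowerSeries.X (Sum.inr ⟨s, h⟩)) i) (by
      rintro (x | s)
      · exact X_mem_psr _
      · simp only [Sum.elim_inr]
        split_ifs
        · exact zero_mem _
        · exact X_mem_psr _)
  have hr : ι.comp π = eraseVar t := by
    refine algHom_ext_X (fun i => ?_) fun i => ?_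
    · rw [AlgHom.comp_apply, hπ]
      rcases i with x | s
      · rw [Sum.elim_inl, hι]; exact X_mem_psr _
      · simp only [Sum.elim_inr]
        split_ifs
        · rw [map_zero]; exact zero_mem _
        · rw [hι]; exact X_mem_psr _
    · rw [AlgHom.comp_apply, hπ]
      rcases i with x | s
      · rw [eraseVar_X_of_ne t (by simp)]
        simp [hι, emb]
      · simp only [Sum.elim_inr]
        split_ifs with h
        · subst h
          rw [map_zero, eraseVar_X_self]
        · rw [eraseVar_X_of_ne t (by simpa using h)]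
          simp [hι, emb]
  have hπX : ∀ i, π (MvPowerSeries.X i) ∈ maximalIdeal (PSR J τ' O) := by
    intro i
    rw [hπ]
    rcases i with x | s
    · exact X_mem_psr _
    · simp only [Sum.elim_inr]
      split_ifs
      · exact zero_mem _
      · exact X_mem_psr _
  have hπm : ∀ x ∈ maximalIdeal (PSR J τ O), π x ∈ maximalIdeal (PSR J τ' O) := fun x hx =>
    map_mem_maximalIdeal π hπX hx
  obtain ⟨σ, hσ⟩ := RT.exists_eval (L := O) (R := PSR J τ' O)
    (fun i : Idx J τ => if i = Sum.inr t then π (-F) else π (MvPowerSeries.X i)) (fun i => by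
      split_ifs
      · exact hπm _ (neg_mem hF)
      · exact hπm _ (X_mem_psr i))
  have hισ : ∀ f, f - ι (σ f) ∈ Ideal.span {e} := by
    intro f
    refine sub_mem_of_forall_X (F := AlgHom.id O _) (G := ι.comp σ) _ (fun i => X_mem_psr i)
      (fun i => ?_) (fun i => ?_) f
    · rw [AlgHom.comp_apply, hσ]
      split_ifs with hi
      · rw [← AlgHom.comp_apply, hr, map_neg, he]
        exact neg_mem hF
      · rw [← AlgHom.comp_apply, hr, eraseVar_X_of_ne t hi]
        exact X_mem_psr i
    · rw [AlgHom.id_apply, AlgHom.comp_apply, hσ]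
      split_ifs with hi
      · rw [← AlgHom.comp_apply, hr, map_neg, he, hi, sub_neg_eq_add, hFdef, add_sub_cancel]
        exact Ideal.mem_span_singleton_self e
      · rw [← AlgHom.comp_apply, hr, eraseVar_X_of_ne t hi, sub_self]
        exact zero_mem _
  have hcard : Nat.card τ' < Nat.card τ := by
    cases nonempty_fintype τ
    rw [Nat.card_eq_fintype_card, Nat.card_eq_fintype_card]
    exact Fintype.card_subtype_lt (x := t) (by simp)
  refine not_le_genericPrime h2 hc hD hcard (Ideal.span {e}) ι (fun x => hι _)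
    (fun s => ?_) (fun q => ?_) ((Ideal.span_singleton_le_iff_mem _).2 hmem)
  · rw [hι]; exact X_mem_psr _
  · obtain ⟨f, rfl⟩ := Ideal.Quotient.mk_surjective q
    exact ⟨σ f, (Ideal.Quotient.eq.2 (Ideal.mem_sup_left (hισ f))).symm⟩

end Fermat.Agent.Lifting.Patching

end
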