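import Fermat.Agent.Lifting.Patching.System
import Fermat.Agent.RT.Patch.Main
import Fermat.Agent.Lifting.Algebra.Annihilator

/-!
# The patched modules

From systems at all levels satisfying the conditions at the nodes, the patched modules: `P`-modules
free over `S = O⟦X₁,…,X_d⟧`, in the shape used by the support lemmas, with `P`-linear maps from
the equivariant edges.
-/

set_option autoImplicit false

noncomputable section

open IsLocalRing Fermat.Agent.RT.Patch

namespace Fermat.Agent.Lifting.Patching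

variable {O : Type} [CommRing O] [IsLocalRing O] {d : ℕ} {P : Type} [CommRing P] [Algebra O P]

local notation "𝕊" => MvPowerSeries (Fin d) O

/-- The conditions on the action at a node and level `n`. -/
structure IsNode (I : Ideal P) (n : ℕ) {D : ℕ}
    (ρ : P →+* Matrix (Fin D) (Fin D) (Lvl 𝕊 n)) : Prop where
  scalar : ∀ a : O, ρ (algebraMap O P a) =
    Matrix.scalar (Fin D) (Ideal.Quotient.mk _ (MvPowerSeries.C a))
  exists_lift : ∀ i, ∃ f : P, ρ f =
    Matrix.scalar (Fin D) (Ideal.Quotient.mk _ (MvPowerSeries.X i))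
  kills : ∀ f ∈ I, ρ f = 0

theorem IsNode.reduce {I : Ideal P} {n D : ℕ}
    {ρ : P →+* Matrix (Fin D) (Fin D) (Lvl 𝕊 (n + 1))} (h : IsNode I (n + 1) ρ) :
    IsNode I n ((redLvl 𝕊 (Nat.le_succ n)).mapMatrix.comp ρ) := by
  refine ⟨fun a => ?_, fun i => ?_, fun f hf => ?_⟩
  · rw [RingHom.comp_apply, h.scalar]
    exact (scalar_map _ _).trans (by rw [redLvl_mk])
  · obtain ⟨f, hf⟩ := h.exists_lift i
    exact ⟨f, by rw [RingHom.comp_apply, hf]; exact (scalar_map _ _).trans (by rw [redLvl_mk])⟩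
  · rw [RingHom.comp_apply, h.kills f hf, map_zero]

section System

variable [IsNoetherianRing O] [IsAdicComplete (maximalIdeal O) O]
  [Finite (ResidueField O)] [IsLocalRing P] [IsNoetherianRing P]
  [IsAdicComplete (maximalIdeal P) P] [Finite (ResidueField P)]

/-- At a node, the variables of `S` lift to `P`. -/
theorem exists_algHom_of_isNode {I : Ideal P} {D : ℕ} (ρ : P →+* Matrix (Fin D) (Fin D) 𝕊)
    (h : ∀ n, IsNode I n ((Ideal.Quotient.mk (maximalIdeal 𝕊 ^ n)).mapMatrix.comp ρ)) :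
    ∃ φ : 𝕊 →ₐ[O] P, (∀ s, ρ (φ s) = Matrix.scalar (Fin D) s) ∧
      ∀ i, φ (MvPowerSeries.X i) ∈ maximalIdeal P := by
  have hy : ∀ i, ∃ f : P, ρ f = Matrix.scalar (Fin D) (MvPowerSeries.X i : 𝕊) ∧
      f ∈ maximalIdeal P := by
    intro i
    rcases Nat.eq_zero_or_pos D with rfl | hD
    · exact ⟨0, Subsingleton.elim _ _, zero_mem _⟩
    have : NeZero D := ⟨hD.ne'⟩
    obtain ⟨f, hf⟩ := exists_preimage_scalar ρ (MvPowerSeries.X i : 𝕊) fun n => by
      obtain ⟨f, hf⟩ := (h n).exists_lift i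
      exact ⟨f, hf.trans (scalar_map _ _).symm⟩
    refine ⟨f, hf, ?_⟩
    rw [mem_maximalIdeal, mem_nonunits_iff]
    intro hu
    have h1 := ((Matrix.isUnit_iff_isUnit_det _).1 (hf ▸ hu.map ρ))
    rw [Matrix.scalar_apply, Matrix.det_diagonal, Finset.prod_const, Finset.card_univ,
      Fintype.card_fin, isUnit_pow_iff (NeZero.ne D), MvPowerSeries.isUnit_iff_constantCoeff,
      MvPowerSeries.constantCoeff_X] at h1
    exact not_isUnit_zero h1
  choose y hy hyM using hy
  obtain ⟨φ, hφX⟩ := RT.exists_eval (L := O) y hyM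
  refine ⟨φ, fun s => eq_of_forall_map fun n => ?_, fun i => by rw [hφX]; exact hyM i⟩
  have := ringHom_ext_of_finite
    ((((Ideal.Quotient.mk (maximalIdeal 𝕊 ^ n)).mapMatrix.comp ρ)).comp φ.toRingHom)
    ((Matrix.scalar (Fin D)).comp (Ideal.Quotient.mk (maximalIdeal 𝕊 ^ n))) (fun a => ?_)
    (fun i => ?_)
  · exact (RingHom.congr_fun this s).trans (scalar_map _ _).symm
  · simp only [RingHom.comp_apply, AlgHom.toRingHom_eq_coe, RingHom.coe_coe]
    rw [show φ (MvPowerSeries.C a) = algebraMap O P a from φ.commutes a]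
    exact (h n).scalar a
  · simp only [RingHom.comp_apply, AlgHom.toRingHom_eq_coe, RingHom.coe_coe]
    rw [hφX, hy]
    exact scalar_map _ _

variable {ν ε : Type} [Finite ν] [Finite ε] {D : ν → ℕ} {src tgt : ε → ν}

/-- **Patching**: systems at all levels satisfying the node conditions and conditions `Good`
stable under reduction give a system over `S`, with the lifts of the variables at every node. -/
theorem exists_patched (I : ν → Ideal P) (Good : ∀ n, Data P D src tgt (Lvl 𝕊 n) → Prop)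
    (hgood : ∀ n X, Good (n + 1) X → Good n (X.map (redLvl 𝕊 (Nat.le_succ n))))
    (hlev : ∀ n, ∃ X : Data P D src tgt (Lvl 𝕊 n), (∀ v, IsNode (I v) n (X.act v)) ∧ Good n X) :
    ∃ (X : Data P D src tgt 𝕊) (φ : ν → 𝕊 →ₐ[O] P),
      (∀ v s, X.act v (φ v s) = Matrix.scalar (Fin (D v)) s) ∧
      (∀ v i, φ v (MvPowerSeries.X i) ∈ maximalIdeal P) ∧
      (∀ v, ∀ f ∈ I v, X.act v f = 0) ∧
      ∀ n, Good n (X.map (Ideal.Quotient.mk (maximalIdeal 𝕊 ^ n))) := by
  obtain ⟨X, hX⟩ := exists_limit (S := 𝕊)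
    (fun n => {X | (∀ v, IsNode (I v) n (X.act v)) ∧ Good n X}) hlev
    fun n X hX => ⟨fun v => (hX.1 v).reduce, hgood n X hX.2⟩
  choose φ hφ hφM using fun v =>
    exists_algHom_of_isNode (I := I v) (X.act v) fun n => (hX n).1 v
  refine ⟨X, φ, hφ, hφM, fun v f hf => eq_of_forall_map fun n => ?_, fun n => (hX n).2⟩
  rw [Matrix.map_zero _ (map_zero _)]
  exact ((hX n).1 v).kills f hf

end System

/-! ### The modules -/

variable {S : Type} [CommRing S] {D D' : ℕ}

/-- `S^D` with `P` acting through `ρ`. -/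
def Space (_ρ : P →+* Matrix (Fin D) (Fin D) S) : Type := Fin D → S

namespace Space

variable (ρ : P →+* Matrix (Fin D) (Fin D) S) {ρ' : P →+* Matrix (Fin D') (Fin D') S}

instance instAddCommGroup : AddCommGroup (Space ρ) := inferInstanceAs (AddCommGroup (Fin D → S))

instance instModule : Module S (Space ρ) := inferInstanceAs (Module S (Fin D → S))

instance instModuleP : Module P (Space ρ) :=
  Module.compHom (Fin D → S)
    ((Matrix.toLinAlgEquiv' : Matrix (Fin D) (Fin D) S ≃ₐ[S] _).toRingEquiv.toRingHom.comp ρ)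

instance instFinite : Module.Finite S (Space ρ) := inferInstanceAs (Module.Finite S (Fin D → S))

instance instFree : Module.Free S (Space ρ) := inferInstanceAs (Module.Free S (Fin D → S))

/-- A vector as an element of the module. -/
def ofVec (x : Fin D → S) : Space ρ := x

/-- An element of the module as a vector. -/
def toVec (x : Space ρ) : Fin D → S := x

omit [Algebra O P] in
theorem smul_def (f : P) (x : Space ρ) : toVec ρ (f • x) = (ρ f).mulVec (toVec ρ x) := rfl

instance instSMulCommClass : SMulCommClass S P (Space ρ) :=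
  ⟨fun s f x => show s • (ρ f).mulVec (toVec ρ x) = (ρ f).mulVec (s • toVec ρ x) by
    rw [Matrix.mulVec_smul]⟩

theorem mem_annihilator {f : P} : f ∈ Module.annihilator P (Space ρ) ↔ ρ f = 0 := by
  rw [Module.mem_annihilator]
  refine ⟨fun h => ?_, fun h x => ?_⟩
  · refine Matrix.ext_of_mulVec_single fun i => ?_
    rw [Matrix.zero_mulVec]
    exact h (ofVec ρ (Pi.single i 1))
  · show (ρ f).mulVec (toVec ρ x) = 0
    rw [h, Matrix.zero_mulVec]

theorem nontrivial [Nontrivial S] (hD : 0 < D) : Nontrivial (Space ρ) :=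
  have : Nonempty (Fin D) := ⟨⟨0, hD⟩⟩
  inferInstanceAs (Nontrivial (Fin D → S))

theorem smul_eq {φ : S →+* P} (hφ : ∀ s, ρ (φ s) = Matrix.scalar (Fin D) s) (s : S)
    (x : Space ρ) : φ s • x = s • x := by
  show (ρ (φ s)).mulVec (toVec ρ x) = s • toVec ρ x
  rw [hφ, Matrix.scalar_apply]
  ext i
  rw [Matrix.mulVec_diagonal, Pi.smul_apply, smul_eq_mul]

/-- The module is finite over `P` once the scalars are in the image. -/
theorem finite {φ : S →+* P} (hφ : ∀ s, ρ (φ s) = Matrix.scalar (Fin D) s) :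
    Module.Finite P (Space ρ) := by
  let : Algebra S P := φ.toAlgebra
  have : IsScalarTower S P (Space ρ) := IsScalarTower.of_algebraMap_smul (smul_eq ρ hφ)
  exact Module.Finite.of_restrictScalars_finite S P _

variable {ρ}

/-- The `P`-linear map of an equivariant matrix. -/
def edgeMap (A : Matrix (Fin D') (Fin D) S) (hA : ∀ f, A * ρ f = ρ' f * A) :
    Space ρ →ₗ[P] Space ρ' where
  toFun x := ofVec ρ' (A.mulVec (toVec ρ x))
  map_add' x y := show A.mulVec (toVec ρ x + toVec ρ y) = _ from Matrix.mulVec_add ..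
  map_smul' f x := show A.mulVec ((ρ f).mulVec (toVec ρ x)) = (ρ' f).mulVec (A.mulVec (toVec ρ x)) by
    rw [Matrix.mulVec_mulVec, Matrix.mulVec_mulVec, hA]

theorem toVec_edgeMap (A : Matrix (Fin D') (Fin D) S) (hA : ∀ f, A * ρ f = ρ' f * A)
    (x : Space ρ) : toVec ρ' (edgeMap A hA x) = A.mulVec (toVec ρ x) := rfl

theorem edgeMap_surjective {A : Matrix (Fin D') (Fin D) S} (hA : ∀ f, A * ρ f = ρ' f * A)
    {B : Matrix (Fin D) (Fin D') S} (h : A * B = 1) : Function.Surjective (edgeMap A hA) :=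
  fun y => ⟨ofVec ρ (B.mulVec (toVec ρ' y)), show A.mulVec (B.mulVec (toVec ρ' y)) = toVec ρ' y by
    rw [Matrix.mulVec_mulVec, h, Matrix.one_mulVec]⟩

theorem edgeMap_injective {A : Matrix (Fin D') (Fin D) S} (hA : ∀ f, A * ρ f = ρ' f * A)
    {B : Matrix (Fin D) (Fin D') S} (h : B * A = 1) : Function.Injective (edgeMap A hA) :=
  fun x y hxy => by
    have := congrArg (fun v => B.mulVec (toVec ρ' v)) hxy
    simp only [toVec_edgeMap, Matrix.mulVec_mulVec, h, Matrix.one_mulVec] at this
    exact this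

/-- The annihilator of the source annihilates the image of a surjection. -/
theorem annihilator_le_of_mul_eq_one {A : Matrix (Fin D') (Fin D) S}
    (hA : ∀ f, A * ρ f = ρ' f * A) {B : Matrix (Fin D) (Fin D') S} (h : A * B = 1) :
    Module.annihilator P (Space ρ) ≤ Module.annihilator P (Space ρ') :=
  LinearMap.annihilator_le_of_surjective _ (edgeMap_surjective hA h)

/-- In a split exact sequence whose cokernel is killed by `a`, multiples of `a` come from the
source. -/
theorem smul_mem_range_of_split {D'' : ℕ} {ρ'' : P →+* Matrix (Fin D'') (Fin D'') S}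
    {A : Matrix (Fin D') (Fin D) S} (hA : ∀ f, A * ρ f = ρ' f * A)
    {Q : Matrix (Fin D'') (Fin D') S} (hQ : ∀ f, Q * ρ' f = ρ'' f * Q)
    {Λ : Matrix (Fin D) (Fin D') S} {Y : Matrix (Fin D') (Fin D'') S} (h : A * Λ + Y * Q = 1)
    {a : P} (ha : ρ'' a = 0) (y : Space ρ') : a • y ∈ LinearMap.range (edgeMap A hA) := by
  refine ⟨ofVec ρ (Λ.mulVec ((ρ' a).mulVec (toVec ρ' y))), ?_⟩
  show A.mulVec (Λ.mulVec ((ρ' a).mulVec (toVec ρ' y))) = (ρ' a).mulVec (toVec ρ' y)
  rw [Matrix.mulVec_mulVec, Matrix.mulVec_mulVec]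
  congr 1
  calc A * Λ * ρ' a = A * Λ * ρ' a + Y * (Q * ρ' a) := by
        rw [hQ, ha, Matrix.zero_mul, Matrix.mul_zero, add_zero]
    _ = ρ' a := by rw [← Matrix.mul_assoc, ← Matrix.add_mul, h, Matrix.one_mul]

/-- The composite of two equivariant maps, entrywise. -/
theorem edgeMap_edgeMap {A : Matrix (Fin D') (Fin D) S} (hA : ∀ f, A * ρ f = ρ' f * A)
    {B : Matrix (Fin D) (Fin D') S} (hB : ∀ f, B * ρ' f = ρ f * B) {c : P} (h : B * A = ρ c)
    (x : Space ρ) : edgeMap B hB (edgeMap A hA x) = c • x :=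
  show B.mulVec (A.mulVec (toVec ρ x)) = (ρ c).mulVec (toVec ρ x) by
    rw [Matrix.mulVec_mulVec, h]

end Space

/-! ### Back to level zero -/

variable {S₀ : Type} [CommRing S₀] {ρ : P →+* Matrix (Fin D) (Fin D) S}

/-- A prime above the annihilator of a module over `S` and above the image of the kernel of
`e : S → S₀` contains every element acting by `0` on the reduction along `e`. -/
theorem mem_of_map_eq_zero {φ : S →+* P} (hφ : ∀ s, ρ (φ s) = Matrix.scalar (Fin D) s)
    {𝔓 : Ideal P} (h𝔓 : 𝔓.IsPrime) (hann : Module.annihilator P (Space ρ) ≤ 𝔓)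
    (e : S →+* S₀) (hker : ∀ s, e s = 0 → φ s ∈ 𝔓) {f : P} (hf : (ρ f).map e = 0) : f ∈ 𝔓 := by
  classical
  by_contra hf𝔓
  have := Space.finite ρ hφ
  refine Algebra.not_annihilator_le_of_smul_mem h𝔓 hf𝔓 (fun x => ?_) hann
  have hx : f • x = ∑ i, φ ((ρ f).mulVec (Space.toVec ρ x) i) • Space.ofVec ρ (Pi.single i 1) := by
    simp only [Space.smul_eq ρ hφ]
    show (ρ f).mulVec (Space.toVec ρ x) = _
    exact pi_eq_sum_univ' _
  rw [hx]
  refine sum_mem fun i _ => Submodule.smul_mem_smul (hker _ ?_) trivial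
  rw [RingHom.map_mulVec, hf, Matrix.zero_mulVec, Pi.zero_apply]

end Fermat.Agent.Lifting.Patching

end
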