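import Fermat.Agent.EichlerShimura.FiniteDVR
import Fermat.Agent.Lifting.Patching.Raise.Input
import Mathlib.RingTheory.IntegralClosure.IsIntegralClosure.Basic

/-!
# An element vanishing at all points acts by zero

* `eq_zero_of_forall_dvrPoint`: a reduced finite torsion free algebra over `O` has enough points
  in finite extension discrete valuation rings;
* `pairsKill_of_points`: an action through such a local algebra kills every element vanishing at
  the points with a property which all its points have.
-/

set_option autoImplicit false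
set_option linter.unusedSectionVars false

noncomputable section

open IsLocalRing Fermat.Agent.RT.LocalRing

namespace Fermat.Agent.Lifting.Patching

variable {O : Type} [CommRing O] [IsDomain O] [IsDiscreteValuationRing O]
  [IsAdicComplete (maximalIdeal O) O] [Finite (ResidueField O)] [CharZero O]
  {T : Type} [CommRing T] [Algebra O T] [Module.Finite O T]

/-- A reduced finite torsion free algebra has enough points. -/
theorem eq_zero_of_forall_dvrPoint [IsReduced T]
    (htf : ∀ (o : O) (t : T), o ≠ 0 → o • t = 0 → t = 0) (x : T)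
    (h : ∀ (V : Type) [CommRing V] [IsDomain V] [IsDiscreteValuationRing V]
      [IsAdicComplete (maximalIdeal V) V] [Finite (ResidueField V)] [CharZero V] [Algebra O V]
      [Module.Finite O V] [IsLocalHom (algebraMap O V)], Function.Injective (algebraMap O V) →
      ∀ f : T →ₐ[O] V, f x = 0) : x = 0 := by
  by_contra hx
  let S : Submonoid T := Submonoid.closure ((algebraMap O T) '' {o | o ≠ 0} ∪ {x})
  have hS : ∀ y ∈ S, ∃ (o : O) (k : ℕ), o ≠ 0 ∧ y = algebraMap O T o * x ^ k := by
    intro y hy
    induction hy using Submonoid.closure_induction with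
    | mem y hy =>
      rcases hy with ⟨o, ho, rfl⟩ | rfl
      · exact ⟨o, 0, ho, by simp⟩
      · exact ⟨1, 1, one_ne_zero, by simp⟩
    | one => exact ⟨1, 0, one_ne_zero, by simp⟩
    | mul a b _ _ iha ihb =>
      obtain ⟨o, k, ho, rfl⟩ := iha
      obtain ⟨o', k', ho', rfl⟩ := ihb
      exact ⟨o * o', k + k', mul_ne_zero ho ho', by rw [map_mul, pow_add]; ring⟩
  have hdisj : Disjoint ((⊥ : Ideal T) : Set T) S := by
    rw [Set.disjoint_left]
    intro y hy hyS
    obtain ⟨o, k, ho, rfl⟩ := hS y hyS
    rw [SetLike.mem_coe, Ideal.mem_bot, ← Algebra.smul_def] at hy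
    exact hx (IsReduced.eq_zero x ⟨k, htf o _ ho hy⟩)
  obtain ⟨P, hP, -, hdis⟩ := Ideal.exists_le_prime_disjoint _ S hdisj
  have hP0 : ∀ o : O, algebraMap O T o ∈ P → o = 0 := fun o ho => by_contra fun hne =>
    Set.disjoint_left.1 hdis ho (Submonoid.subset_closure (Or.inl ⟨o, hne, rfl⟩))
  obtain ⟨V, _, _, _, _, _, _, _, _, _, hinj, f, hf⟩ :=
    EichlerShimura.exists_finiteDVR_extension O T P hP0
  have hfx := h V hinj f
  exact Set.disjoint_left.1 hdis (hf ▸ hfx : x ∈ P) (Submonoid.subset_closure (Or.inr rfl))

/-- A point of a local finite algebra is a local homomorphism. -/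
theorem isLocalHom_point [IsLocalRing T] {V : Type} [CommRing V] [IsDomain V] [IsLocalRing V]
    [Algebra O V] [Module.Finite O V] (f : T →ₐ[O] V) : IsLocalHom (f : T →+* V) := by
  refine ⟨fun t ht => ?_⟩
  by_contra hnu
  have : Algebra.IsIntegral f.toRingHom.range V := by
    have : Algebra.IsIntegral O V := Algebra.IsIntegral.of_finite O V
    refine ⟨fun v => ?_⟩
    obtain ⟨q, hq, hv⟩ := Algebra.IsIntegral.isIntegral (R := O) v
    refine ⟨q.map (f.toRingHom.rangeRestrict.comp (algebraMap O T)), hq.map _, ?_⟩
    rw [Polynomial.eval₂_map]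
    have e : (algebraMap f.toRingHom.range V).comp
        (f.toRingHom.rangeRestrict.comp (algebraMap O T)) = algebraMap O V :=
      RingHom.ext fun o => f.commutes o
    rw [e]
    exact hv
  have : IsLocalRing f.toRingHom.range :=
    IsLocalRing.of_surjective' f.toRingHom.rangeRestrict f.toRingHom.rangeRestrict_surjective
  have : IsLocalHom f.toRingHom.rangeRestrict :=
    IsLocalHom.of_surjective _ f.toRingHom.rangeRestrict_surjective
  have hloc : IsLocalHom (algebraMap f.toRingHom.range V) :=
    RingHom.IsIntegral.isLocalHom (fun v => Algebra.IsIntegral.isIntegral v)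
      (fun a b h => Subtype.ext h)
  exact hnu (IsLocalHom.map_nonunit (f := f.toRingHom.rangeRestrict) t
    (hloc.map_nonunit (f.toRingHom.rangeRestrict t) ht))

variable {R : Type} [CommRing R] [Algebra O R] {M : Type} [AddCommGroup M] {J : Type}

/-- Elements vanishing at the points with a property act by zero through a reduced local algebra
all whose points have it. -/
theorem pairsKill_of_points [IsReduced T] [IsLocalRing T]
    (htf : ∀ (o : O) (t : T), o ≠ 0 → o • t = 0 → t = 0)
    (π : R →ₐ[O] T) (hπ : IsLocalHom (π : R →+* T)) (act : R → M → M)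
    (hact : ∀ x, π x = 0 → ∀ v, act x v = 0) (pair : J → Mat R × Mat R)
    (Pred : ∀ ⦃V : Type⦄ [CommRing V] [Algebra O V], (J → Mat V × Mat V) → Prop)
    (hpts : ∀ (V : Type) [CommRing V] [IsDomain V] [IsDiscreteValuationRing V]
      [IsAdicComplete (maximalIdeal V) V] [Finite (ResidueField V)] [CharZero V] [Algebra O V]
      [Module.Finite O V] [IsLocalHom (algebraMap O V)], Function.Injective (algebraMap O V) →
      ∀ f : T →ₐ[O] V, IsLocalHom (f : T →+* V) →
        Pred (fun j => ((pair j).1.map (f.comp π), (pair j).2.map (f.comp π)))) :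
    PairsKill (O := O) act pair Pred := by
  intro x hx
  refine hact x (eq_zero_of_forall_dvrPoint htf _ fun V _ _ _ _ _ _ _ _ _ hinj f => ?_)
  have hf := isLocalHom_point f
  refine hx V hinj (f.comp π) ?_ (hpts V hinj f hf)
  exact ⟨fun r hr => hπ.map_nonunit r (hf.map_nonunit (π r) hr)⟩

end Fermat.Agent.Lifting.Patching

end
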