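import Fermat.Agent.RT.Patch.Limit

/-!
# Patching finitely many modules with maps

A system over a coefficient ring `T`: at every node `v` an action of `P` on `T^(D v)` and at every
edge `e` a matrix. Compactness produces a system over `S` from systems over all `S ⧸ 𝔪ⁿ`; every
equation which is compatible with reduction passes to it.
-/

set_option autoImplicit false

noncomputable section

open IsLocalRing Fermat.Agent.RT.Patch

namespace Fermat.Agent.Lifting.Patching

variable (P : Type) [CommRing P] {ν ε : Type} (D : ν → ℕ) (src tgt : ε → ν)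

/-- Actions of `P` at the nodes and matrices at the edges. -/
structure Data (T : Type) [CommRing T] where
  /-- the action at a node -/
  act : ∀ v, P →+* Matrix (Fin (D v)) (Fin (D v)) T
  /-- the matrix of an edge -/
  edge : ∀ e, Matrix (Fin (D (tgt e))) (Fin (D (src e))) T

variable {P D src tgt}

/-- Change of coefficients. -/
def Data.map {T T' : Type} [CommRing T] [CommRing T'] (X : Data P D src tgt T) (f : T →+* T') :
    Data P D src tgt T' :=
  ⟨fun v => f.mapMatrix.comp (X.act v), fun e => (X.edge e).map f⟩

section

variable {T T' : Type} [CommRing T] [CommRing T']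

@[simp]
theorem Data.map_act (X : Data P D src tgt T) (f : T →+* T') (v : ν) (x : P) :
    (X.map f).act v x = (X.act v x).map f := rfl

@[simp]
theorem Data.map_edge (X : Data P D src tgt T) (f : T →+* T') (e : ε) :
    (X.map f).edge e = (X.edge e).map f := rfl

theorem Data.map_map {T'' : Type} [CommRing T''] (X : Data P D src tgt T) (f : T →+* T')
    (g : T' →+* T'') : (X.map f).map g = X.map (g.comp f) := by
  cases X
  rfl

theorem scalar_map {m : Type} [Fintype m] [DecidableEq m] (f : T →+* T') (s : T) :
    (Matrix.scalar m s).map f = Matrix.scalar m (f s) := by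
  rw [Matrix.scalar_apply, Matrix.scalar_apply, Matrix.diagonal_map (map_zero f)]

/-- Equality of two intertwiners is preserved by change of coefficients. -/
theorem commute_map {m m' : Type} [Fintype m] [Fintype m'] (f : T →+* T')
    {A : Matrix m' m T} {M : Matrix m m T} {M' : Matrix m' m' T} (h : A * M = M' * A) :
    A.map f * M.map f = M'.map f * A.map f := by
  rw [← Matrix.map_mul, ← Matrix.map_mul, h]

end

variable {S : Type} [CommRing S] [IsLocalRing S] [IsAdicComplete (maximalIdeal S) S]

/-- Matrices over `S` are determined by their reductions. -/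
theorem eq_of_forall_map {m m' : Type} {A B : Matrix m m' S}
    (h : ∀ k, A.map (Ideal.Quotient.mk (maximalIdeal S ^ k)) = B.map (Ideal.Quotient.mk _)) :
    A = B :=
  Matrix.ext fun i j => eq_of_forall_mk fun k => congrFun (congrFun (h k) i) j

variable [IsNoetherianRing S] [Finite (ResidueField S)]
  [IsLocalRing P] [IsNoetherianRing P] [Finite (ResidueField P)] [Finite ν] [Finite ε]

omit [IsAdicComplete (maximalIdeal S) S] in
instance finite_data (k : ℕ) : Finite (Data P D src tgt (Lvl S k)) := by
  have : ∀ v, Finite (P →+* Matrix (Fin (D v)) (Fin (D v)) (Lvl S k)) := fun v =>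
    finite_ringHom _
  refine Finite.of_injective (β := (∀ v, P →+* Matrix (Fin (D v)) (Fin (D v)) (Lvl S k)) ×
    (∀ e, Matrix (Fin (D (tgt e))) (Fin (D (src e))) (Lvl S k))) (fun X => (X.act, X.edge)) ?_
  rintro ⟨a, b⟩ ⟨a', b'⟩ h
  cases h
  rfl

/-- The limit: from non-empty reduction-stable sets of systems at all levels, a system over `S`
all whose reductions lie in them. -/
theorem exists_limit (C : ∀ k, Set (Data P D src tgt (Lvl S k))) (hne : ∀ k, (C k).Nonempty)
    (hred : ∀ k, ∀ X ∈ C (k + 1), X.map (redLvl S (Nat.le_succ k)) ∈ C k) :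
    ∃ X : Data P D src tgt S, ∀ k, X.map (Ideal.Quotient.mk (maximalIdeal S ^ k)) ∈ C k := by
  have : ∀ k, Nonempty (C k) := fun k => (hne k).to_subtype
  obtain ⟨s, hs⟩ := exists_compatible_sequence (fun k => C k) fun k X => ⟨_, hred k X.1 X.2⟩
  replace hs : ∀ k, (s (k + 1)).1.map (redLvl S (Nat.le_succ k)) = (s k).1 := fun k =>
    congrArg Subtype.val (hs k)
  have hlift : ∀ (v : ν) (f : P) (i j : Fin (D v)),
      ∃ a : S, ∀ k, Ideal.Quotient.mk _ a = (s k).1.act v f i j := by
    intro v f i j
    refine exists_lift_of_compatible _ fun k => ?_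
    conv_rhs => rw [← hs k]
    rfl
  have hliftE : ∀ (e : ε) (i : Fin (D (tgt e))) (j : Fin (D (src e))),
      ∃ a : S, ∀ k, Ideal.Quotient.mk _ a = (s k).1.edge e i j := by
    intro e i j
    refine exists_lift_of_compatible _ fun k => ?_
    conv_rhs => rw [← hs k]
    rfl
  choose a ha using hlift
  choose b hb using hliftE
  have hM : ∀ v f k, (Matrix.of fun i j => a v f i j).map (Ideal.Quotient.mk _) =
      (s k).1.act v f := fun v f k => Matrix.ext fun i j => ha v f i j k
  refine ⟨⟨fun v =>
    { toFun := fun f => Matrix.of fun i j => a v f i j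
      map_one' := eq_of_forall_map fun k => by
        rw [hM, map_one, Matrix.map_one _ (map_zero _) (map_one _)]
      map_mul' := fun f g => eq_of_forall_map fun k => by
        rw [hM, map_mul, Matrix.map_mul, hM, hM]
      map_zero' := eq_of_forall_map fun k => by
        rw [hM, map_zero, Matrix.map_zero _ (map_zero _)]
      map_add' := fun f g => eq_of_forall_map fun k => by
        rw [hM, map_add, Matrix.map_add _ (map_add _), hM, hM] },
    fun e => Matrix.of fun i j => b e i j⟩, fun k => ?_⟩
  convert (s k).2 using 1
  refine congr_arg₂ Data.mk (funext fun v => RingHom.ext fun f => hM v f k) ?_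
  exact funext fun e => Matrix.ext fun i j => hb e i j k

end Fermat.Agent.Lifting.Patching

end
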